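import Fermat.Agent.HeckeDatum.Operators
import Fermat.Agent.Chebotarev.Basic

/-!
# Unramifiedness outside `S` reduced to the Galois action on parabolic characters
-/

set_option autoImplicit false

namespace Fermat.Agent.HeckeDatum

local notation "Qbar" => AlgebraicClosure ℚ

/-- Frobenius density holds. -/
theorem frobeniusPowDense : FrobeniusPowDense := by
  intro L hL σ S₀
  obtain ⟨l, hl, hlS, -, A, hA, φ, hφ, m, k, a, -, -, -, -, ha⟩ :=
    Chebotarev.exists_isFrobeniusAt_pow L σ S₀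
  exact ⟨l, hl, hlS, A, hA, φ, hφ, a, ha⟩

variable {p : ℕ} {N : ℕ} [NeZero N] {S : Finset ℕ}
  {𝒪 : Type} [CommRing 𝒪] [IsDomain 𝒪] [IsDiscreteValuationRing 𝒪]
  [IsAdicComplete (IsLocalRing.maximalIdeal 𝒪) 𝒪]
  {θ : CuspForm.heckeAlgebra N 2 (↑S : Set ℕ) →+* IsLocalRing.ResidueField 𝒪}
  {T : Type} [CommRing T] [IsLocalRing T] [IsNoetherianRing T]
  [IsAdicComplete (IsLocalRing.maximalIdeal T) T] [Algebra 𝒪 T] [IsLocalHom (algebraMap 𝒪 T)]
  [Module.Finite 𝒪 T] [Module.Free 𝒪 T]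

/-- Unramifiedness outside `S` from the Galois action on parabolic characters. -/
theorem isUnramifiedAt_of_galoisOnCharacters
    (hp : p.Prime) (hp𝒪 : (p : 𝒪) ∈ IsLocalRing.maximalIdeal 𝒪) (hpS : p ∈ S)
    (hNS : ∀ q : ℕ, q.Prime → q ∣ N → q ∈ (↑S : Set ℕ))
    (H : CuspForm.HeckeGaloisRepDatum N (↑S : Set ℕ) 𝒪 θ T)
    (q : ℕ) (hq : q.Prime) (hqS : q ∉ S)
    (hchar : HasGaloisOnCharacters hNS p q) : H.ρ.IsUnramifiedAt q :=
  isUnramifiedAt_of_characters frobeniusPowDense hp hp𝒪 hpS hNS H q hq hqS hchar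

end Fermat.Agent.HeckeDatum
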