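import Fermat.Agent.HeckeDatum.TraceInvariance
import Fermat.Prelude.Def_ModularCurve_HeckeModule
import Mathlib.RingTheory.Ideal.Maps

/-!
# The formal Hecke algebra away from `S`, on cusp forms and on the Jacobian

The polynomial ring `AwayPoly S` on the primes outside `S` maps onto the Hecke algebra of cusp
forms (`evalForms`) and acts on `J₀(N)` through the full formal Hecke algebra (`toHeckeAlg`).
`JacobianFaithful` is the comparison of the two actions on `p`-power torsion.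
-/

namespace Fermat.Agent.HeckeDatum

open ModularCurve

local notation "Qbar" => AlgebraicClosure ℚ

/-- Primes outside `S`. -/
abbrev AwayPrimes (S : Set ℕ) : Type := {ℓ : Nat.Primes // (ℓ : ℕ) ∉ S}

/-- The formal Hecke algebra away from `S`. -/
abbrev AwayPoly (S : Set ℕ) : Type := MvPolynomial (AwayPrimes S) ℤ

/-- Inclusion of the formal Hecke algebra away from `S` into the full one. -/
noncomputable def toHeckeAlg (S : Set ℕ) : AwayPoly S →+* HeckeAlg :=
  (MvPolynomial.rename (Subtype.val : AwayPrimes S → Nat.Primes)).toRingHom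

variable {N : ℕ} [NeZero N] {S : Set ℕ}

/-- Evaluation of the formal Hecke algebra away from `S` on cusp forms. -/
noncomputable def evalForms (hNS : ∀ q : ℕ, q.Prime → q ∣ N → q ∈ S) :
    AwayPoly S →+* CuspForm.heckeAlgebra N 2 S :=
  MvPolynomial.eval₂Hom (Int.castRingHom _) fun ℓ =>
    CuspForm.heckeAlgebra.T ℓ.1.2 (fun h => ℓ.2 (hNS _ ℓ.1.2 h)) ℓ.2

/-- The Hecke algebra of cusp forms is generated by the `T_ℓ`, `ℓ ∉ S`. -/
lemma evalForms_surjective (hNS : ∀ q : ℕ, q.Prime → q ∣ N → q ∈ S) :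
    Function.Surjective (evalForms hNS) := by
  rintro ⟨t, ht⟩
  induction ht using Algebra.adjoin_induction with
  | mem x hx =>
    rcases hx with ⟨ℓ, hℓ, hℓN, hℓS, rfl⟩ | ⟨q, hqN, hq, hqS, rfl⟩
    · refine ⟨MvPolynomial.X ⟨⟨ℓ, hℓ⟩, hℓS⟩, Subtype.ext ?_⟩
      simp [evalForms]
    · exact absurd (hNS q hq hqN) hqS
  | algebraMap r =>
    refine ⟨MvPolynomial.C r, Subtype.ext ?_⟩
    simp [evalForms]
  | add x y _ _ hx hy =>
    obtain ⟨a, ha⟩ := hx
    obtain ⟨b, hb⟩ := hy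
    exact ⟨a + b, by rw [map_add, ha, hb]; rfl⟩
  | mul x y _ _ hx hy =>
    obtain ⟨a, ha⟩ := hx
    obtain ⟨b, hb⟩ := hy
    exact ⟨a * b, by rw [map_mul, ha, hb]; rfl⟩

/-- The comparison of the Hecke action on `p`-power torsion of `J₀(N)` with the one on forms. -/
structure JacobianFaithful (p : ℕ) (hNS : ∀ q : ℕ, q.Prime → q ∣ N → q ∈ S) : Prop where
  smul_eq_zero : ∀ P : AwayPoly S, evalForms hNS P = 0 →
    ∀ (k : ℕ) (x : JZero N), p ^ k • x = 0 →
      (letI := heckeModuleBar N; toHeckeAlg S P • x) = 0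
  finiteLevel : ∀ k : ℕ, ∃ L : IntermediateField ℚ Qbar, FiniteDimensional ℚ L ∧
    ∀ σ : Qbar ≃ₐ[ℚ] Qbar, (∀ y ∈ L, σ y = y) → ∀ x : JZero N, p ^ k • x = 0 → σ • x = x
  ann_le : ∀ j : ℕ, ∃ k : ℕ, ∀ P : AwayPoly S,
    (∀ x : JZero N, p ^ k • x = 0 → (letI := heckeModuleBar N; toHeckeAlg S P • x) = 0) →
      ∃ u : CuspForm.heckeAlgebra N 2 S,
        evalForms hNS P = (p : CuspForm.heckeAlgebra N 2 S) ^ j * u

end Fermat.Agent.HeckeDatum
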