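import Fermat.Agent.HeckeDatum.JacobianInput
import Fermat.Agent.RepTheory.GaloisBridge
import Fermat.Agent.HeckeLattice.Lattice
import Fermat.Agent.HeckeLattice.Parabolic
import Mathlib.Algebra.Polynomial.AlgebraMap

/-!
# Unramifiedness of Hecke-Galois data from operators on parabolic characters

If there are Galois modules with operators `T_ℓ` (no commutation between different `T_ℓ` is
needed), unramified at `q` and satisfying the Eichler-Shimura relation, then the trace of a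
Hecke-Galois datum is invariant under inertia at `q` (`trace_mul_eq_of_operators`), and the datum
is unramified at `q` as its image spans (`isUnramifiedAt_of_operators`). This specialises to the
parabolic characters `Γ₀(N) → ℤ/p^k` with the transfer operators.
-/

set_option autoImplicit false

noncomputable section

namespace Fermat.Agent.HeckeDatum

open Polynomial HeckeLattice CongruenceSubgroup ModularCurve.Period
open scoped MatrixGroups

local notation "Qbar" => AlgebraicClosure ℚ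

variable {p : ℕ} {N : ℕ} [NeZero N] {S : Finset ℕ}

/-- For every `j` a Galois module with operators `T_ℓ` commuting with Galois, killed by a power
of `p`, unramified at `q`, with the Eichler-Shimura relation, whose formal annihilator evaluates
into `p ^ j`. -/
def HasUnramifiedHeckeOperators {S : Set ℕ} (hNS : ∀ q : ℕ, q.Prime → q ∣ N → q ∈ S) (p q : ℕ) :
    Prop :=
  ∀ j : ℕ, ∃ (M : Type) (_ : AddCommGroup M) (T : AwayIdx S → Module.End ℤ M)
    (r : (Qbar ≃ₐ[ℚ] Qbar) →* Module.End ℤ M) (k : ℕ) (S₀ : Finset ℕ),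
    (∀ σ ℓ, Commute (r σ) (T ℓ)) ∧
    (∀ m : M, p ^ k • m = 0) ∧
    GaloisFactorsThroughFiniteLevel r ∧
    (∀ P : ValuationSubring Qbar, P.LiesOverPrime q → ∀ σ ∈ P.inertiaSubgroupIn ℚ, r σ = 1) ∧
    (∀ ℓ : AwayIdx S, (ℓ : Nat.Primes).1 ∉ S₀ →
      ∀ A : ValuationSubring Qbar, A.LiesOverPrime (ℓ : Nat.Primes).1 →
        ∀ φ : Qbar ≃ₐ[ℚ] Qbar, A.IsFrobeniusAt φ (ℓ : Nat.Primes).1 → ∀ m : M,
          r φ (r φ m) - T ℓ (r φ m) + (ℓ : Nat.Primes).1 • m = 0) ∧
    (∀ P : FreeHecke S, FreeAlgebra.lift ℤ T P = 0 →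
      ∃ u : CuspForm.heckeAlgebra N 2 S,
        evalFree hNS P = (p : CuspForm.heckeAlgebra N 2 S) ^ j * u)

omit [NeZero N] in
/-- Powers of a quadratic relation for commuting endomorphisms. -/
lemma pow_quadratic_operator {M : Type*} [AddCommGroup M] {x t : Module.End ℤ M}
    (hxt : Commute x t) (ℓ : ℕ) (h : ∀ m, x (x m) - t (x m) + ℓ • m = 0) (a : ℕ) (m : M) :
    (x ^ a) ((x ^ a) m)
      - Polynomial.aeval t (powTrace (X : ℤ[X]) (ℓ : ℤ[X]) a) ((x ^ a) m) + ℓ ^ a • m = 0 := by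
  let : Module ℤ[X] M := Module.compHom M (Polynomial.aeval t).toRingHom
  have hsmul : ∀ (f : ℤ[X]) (v : M), f • v = Polynomial.aeval t f v := fun _ _ => rfl
  let x' : Module.End ℤ[X] M :=
    { toFun := x
      map_add' := x.map_add
      map_smul' := fun f v => by
        have hc : Commute x (Polynomial.aeval t f) := by
          induction f using Polynomial.induction_on' with
          | add f g hf hg => rw [map_add]; exact hf.add_right hg
          | monomial n c =>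
            rw [Polynomial.aeval_monomial]
            exact (Algebra.commute_algebraMap_right c x).mul_right (hxt.pow_right n)
        show x (f • v) = f • x v
        rw [hsmul, hsmul]
        exact LinearMap.congr_fun hc.eq v }
  have hnat : ∀ (n : ℕ) (v : M), (n : ℤ[X]) • v = n • v := fun n v => Nat.cast_smul_eq_nsmul _ n v
  have hx : x' ^ 2 - (X : ℤ[X]) • x' + (ℓ : ℤ[X]) • (1 : Module.End ℤ[X] M) = 0 := by
    refine LinearMap.ext fun v => ?_
    simp only [pow_two, LinearMap.add_apply, LinearMap.sub_apply, LinearMap.smul_apply,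
      Module.End.mul_apply, Module.End.one_apply, LinearMap.zero_apply, hnat]
    rw [hsmul, Polynomial.aeval_X]
    exact h v
  have hpow : ∀ (b : ℕ) (v : M), (x' ^ b) v = (x ^ b) v := fun b => by
    induction b with
    | zero => intro v; rfl
    | succ b ih =>
      intro v
      rw [pow_succ', pow_succ', Module.End.mul_apply, Module.End.mul_apply, ih]
      rfl
  have h2 := LinearMap.congr_fun (pow_quadratic_algebra hx a) m
  simp only [LinearMap.add_apply, LinearMap.sub_apply, LinearMap.smul_apply, pow_two,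
    Module.End.mul_apply, Module.End.one_apply, LinearMap.zero_apply, hpow] at h2
  rw [← Nat.cast_pow, hnat, hsmul] at h2
  exact h2

variable {𝒪 : Type} [CommRing 𝒪] [IsDomain 𝒪] [IsDiscreteValuationRing 𝒪]
  [IsAdicComplete (IsLocalRing.maximalIdeal 𝒪) 𝒪]
  {θ : CuspForm.heckeAlgebra N 2 (↑S : Set ℕ) →+* IsLocalRing.ResidueField 𝒪}
  {T : Type} [CommRing T] [IsLocalRing T] [IsNoetherianRing T]
  [IsAdicComplete (IsLocalRing.maximalIdeal T) T] [Algebra 𝒪 T] [IsLocalHom (algebraMap 𝒪 T)]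
  [Module.Finite 𝒪 T] [Module.Free 𝒪 T]

/-- The trace of a Hecke-Galois datum is invariant under inertia at `q`. -/
theorem trace_mul_eq_of_operators (hdense : FrobeniusPowDense)
    (hp : p.Prime) (hp𝒪 : (p : 𝒪) ∈ IsLocalRing.maximalIdeal 𝒪)
    (hNS : ∀ q : ℕ, q.Prime → q ∣ N → q ∈ (↑S : Set ℕ))
    (H : CuspForm.HeckeGaloisRepDatum N (↑S : Set ℕ) 𝒪 θ T)
    {q : ℕ} (hq : q.Prime) (hqp : q ≠ p)
    (hM : HasUnramifiedHeckeOperators hNS p q)
    {P : ValuationSubring Qbar} (hP : P.LiesOverPrime q)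
    {σ : Qbar ≃ₐ[ℚ] Qbar} (hσ : σ ∈ P.inertiaSubgroupIn ℚ) (g : Qbar ≃ₐ[ℚ] Qbar) :
    LinearMap.trace T H.ρ.V (H.ρ.ρ (σ * g)) = LinearMap.trace T H.ρ.V (H.ρ.ρ g) := by
  refine IsHausdorff.eq_iff_smodEq (I := IsLocalRing.maximalIdeal T) |>.mpr fun n => ?_
  rw [SModEq.sub_mem, smul_eq_mul, Ideal.mul_top]
  obtain ⟨L₁, hL₁, hcont⟩ := H.ρ.isAdicContinuous n
  obtain ⟨M, _, Top, r, k, S₀, hcommT, hpk, ⟨L₂, hL₂, hfac⟩, hinert, hES, hann⟩ := hM n
  obtain ⟨ζ, hζ⟩ : ∃ ζ : Qbar, IsPrimitiveRoot ζ (p ^ k) := by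
    have : NeZero (p ^ k) := ⟨pow_ne_zero _ hp.ne_zero⟩
    exact HasEnoughRootsOfUnity.exists_primitiveRoot Qbar (p ^ k)
  have := hL₁
  have := hL₂
  have : FiniteDimensional ℚ (IntermediateField.adjoin ℚ ({ζ} : Set Qbar)) :=
    IntermediateField.adjoin.finiteDimensional
      (IsPrimitiveRoot.isIntegral hζ (pow_pos hp.pos k) |>.tower_top)
  set L : IntermediateField ℚ Qbar := L₁ ⊔ L₂ ⊔ IntermediateField.adjoin ℚ {ζ}
  have hLfin : FiniteDimensional ℚ L := inferInstance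
  have hL1le : L₁ ≤ L := le_sup_of_le_left le_sup_left
  have hL2le : L₂ ≤ L := le_sup_of_le_left le_sup_right
  have hζL : ζ ∈ L :=
    le_sup_right (a := L₁ ⊔ L₂) (IntermediateField.mem_adjoin_simple_self ℚ ζ)
  have key : ∀ h : Qbar ≃ₐ[ℚ] Qbar, ∃ (c : FreeHecke (↑S : Set ℕ)) (d : ℕ),
      LinearMap.trace T H.ρ.V (H.ρ.ρ h) - H.π (evalFree hNS c)
        ∈ IsLocalRing.maximalIdeal T ^ n ∧
      h ζ = ζ ^ d ∧ ∀ m : M, r h (r h m) - FreeAlgebra.lift ℤ Top c (r h m) + d • m = 0 := by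
    intro h
    obtain ⟨ℓ, hℓ, hℓnot, A, hA, φ, hφ, a, ha⟩ := hdense L hLfin h (S₀ ∪ S ∪ {p})
    simp only [Finset.mem_union, Finset.mem_singleton, not_or] at hℓnot
    obtain ⟨⟨hℓS₀, hℓS⟩, hℓp⟩ := hℓnot
    have hℓS' : ℓ ∉ (↑S : Set ℕ) := by simpa using hℓS
    have hℓN : ¬ ℓ ∣ N := fun hd => hℓS' (hNS ℓ hℓ hd)
    set i : AwayIdx (↑S : Set ℕ) := ⟨⟨ℓ, hℓ⟩, hℓS'⟩
    refine ⟨Polynomial.aeval (FreeAlgebra.ι ℤ i) (powTrace (X : ℤ[X]) (ℓ : ℤ[X]) a), ℓ ^ a,
      ?_, ?_, ?_⟩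
    · have he : evalFree hNS (FreeAlgebra.ι ℤ i)
          = (CuspForm.heckeAlgebra.T hℓ hℓN hℓS' : CuspForm.heckeAlgebra N 2 (↑S : Set ℕ)) := by
        simp [evalFree, i]
      rw [← Polynomial.aeval_algHom_apply, he, ← AlgHom.coe_toRingHom, map_powTrace,
        AlgHom.coe_toRingHom, Polynomial.aeval_X, map_natCast, map_powTrace, map_natCast,
        ← trace_pow_of_charpoly H.ρ.finrank_eq (H.charpoly_frob ℓ hℓ hℓN hℓS' A hA φ hφ) a,
        ← map_pow, ← map_sub]
      refine trace_mem_of_forall_mem_smul_top _ fun v => ?_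
      rw [LinearMap.sub_apply]
      exact apply_sub_apply_mem H.ρ hcont (fun x hx => ha x (hL1le hx)) v
    · rw [ha ζ hζL]
      exact frobenius_pow_apply_eq A hA
        (((Nat.coprime_primes hp hℓ).mpr (Ne.symm hℓp)).pow_left k) (pow_ne_zero _ hp.ne_zero)
        hφ a hζ.pow_eq_one
    · have hrh : r h = (r φ) ^ a := by
        have h1 : r ((φ ^ a)⁻¹ * h) = 1 := hfac _ fun x hx => by
          rw [AlgEquiv.mul_apply, ha x (hL2le hx)]; exact AlgEquiv.symm_apply_apply (φ ^ a) x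
        rw [← map_pow, ← mul_one (r (φ ^ a)), ← h1, ← map_mul, mul_inv_cancel_left]
      intro m
      rw [← Polynomial.aeval_algHom_apply, FreeAlgebra.lift_ι_apply, hrh]
      exact pow_quadratic_operator (hcommT φ i) ℓ (hES i hℓS₀ A hA φ hφ) a m
  obtain ⟨c, d, hc, hd, hrel⟩ := key g
  obtain ⟨c', d', hc', hd', hrel'⟩ := key (σ * g)
  have hσζ : σ ζ = ζ :=
    inertia_apply_eq P hP (((Nat.coprime_primes hp hq).mpr (Ne.symm hqp)).pow_left k)
      (pow_ne_zero _ hp.ne_zero) hσ hζ.pow_eq_one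
  have hdd : ∀ m : M, d' • m = d • m := by
    have h1 : ζ ^ d' = ζ ^ d := by
      rw [← hd', AlgEquiv.mul_apply, hd, map_pow, hσζ]
    have h2 : d' % p ^ k = d % p ^ k := by
      rw [hζ.eq_orderOf]
      exact (hζ.isOfFinOrder (pow_ne_zero _ hp.ne_zero)).pow_eq_pow_iff_modEq.mp h1
    intro m
    rw [← Nat.div_add_mod d' (p ^ k), ← Nat.div_add_mod d (p ^ k), h2, add_smul, add_smul,
      mul_comm, mul_smul, hpk, smul_zero, mul_comm, mul_smul, hpk, smul_zero]
  have hann' : FreeAlgebra.lift ℤ Top (c' - c) = 0 := by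
    refine LinearMap.ext fun m => ?_
    have hσM : r (σ * g) = r g := by rw [map_mul, hinert P hP σ hσ, one_mul]
    obtain ⟨m', rfl⟩ : ∃ m', r g m' = m := ⟨r g⁻¹ m, by
      rw [← Module.End.mul_apply, ← map_mul, mul_inv_cancel, map_one, Module.End.one_apply]⟩
    have e1 := hrel m'
    have e2 := hrel' m'
    rw [hσM, hdd] at e2
    rw [map_sub, LinearMap.sub_apply, LinearMap.zero_apply, sub_eq_zero]
    calc FreeAlgebra.lift ℤ Top c' (r g m') = r g (r g m') + d • m' := by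
          rw [eq_comm, ← sub_eq_zero, add_sub_right_comm]; exact e2
      _ = FreeAlgebra.lift ℤ Top c (r g m') := by
          rw [← sub_eq_zero, add_sub_right_comm]; exact e1
  obtain ⟨u, hu⟩ := hann _ hann'
  have hpT : (p : T) ∈ IsLocalRing.maximalIdeal T := by
    rw [← map_natCast (algebraMap 𝒪 T) p]
    exact map_nonunit (algebraMap 𝒪 T) _ hp𝒪
  have hcc : H.π (evalFree hNS c') - H.π (evalFree hNS c)
      ∈ IsLocalRing.maximalIdeal T ^ n := by
    rw [← map_sub, ← map_sub (evalFree hNS), hu, map_mul, map_pow, map_natCast]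
    exact Ideal.mul_mem_right _ _ (Ideal.pow_mem_pow hpT n)
  have := Ideal.sub_mem _ (Ideal.add_mem _ hc' hcc) hc
  convert this using 1
  ring

/-- Unramifiedness outside `S` from operators. -/
theorem isUnramifiedAt_of_operators (hdense : FrobeniusPowDense)
    (hp : p.Prime) (hp𝒪 : (p : 𝒪) ∈ IsLocalRing.maximalIdeal 𝒪)
    (hNS : ∀ q : ℕ, q.Prime → q ∣ N → q ∈ (↑S : Set ℕ))
    (H : CuspForm.HeckeGaloisRepDatum N (↑S : Set ℕ) 𝒪 θ T)
    {q : ℕ} (hq : q.Prime) (hqp : q ≠ p)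
    (hM : HasUnramifiedHeckeOperators hNS p q) : H.ρ.IsUnramifiedAt q := by
  intro P hP σ hσ
  rw [← sub_eq_zero]
  refine eq_zero_of_forall_trace_mul_eq_zero fun f => ?_
  have hf : f ∈ Submodule.span T (Set.range H.ρ.ρ) :=
    (RepTheory.adic_span_eq_top H.ρ H.residual_absIrr) ▸ Submodule.mem_top
  induction hf using Submodule.span_induction with
  | mem x hx =>
    obtain ⟨g, rfl⟩ := hx
    rw [sub_mul, one_mul, map_sub, ← map_mul,
      trace_mul_eq_of_operators hdense hp hp𝒪 hNS H hq hqp hM hP hσ g, sub_self]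
  | zero => rw [mul_zero, map_zero]
  | add x y _ _ hx hy => rw [mul_add, map_add, hx, hy, add_zero]
  | smul a x _ hx => rw [mul_smul_comm, map_smul, hx, smul_zero]

/-! ### Specialisation to parabolic characters -/

/-- Parabolic characters `Γ₀(N) → ℤ/n`. -/
abbrev ParChar (N n : ℕ) : Type :=
  ↥(parabolicHoms ℤ (Gamma0 N) (ZMod n))

/-- The transfer `T_ℓ` on parabolic characters. -/
def parTransfer {S : Set ℕ} (hNS : ∀ q : ℕ, q.Prime → q ∣ N → q ∈ S) (n : ℕ) (ℓ : AwayIdx S) :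
    Module.End ℤ (ParChar N n) :=
  haveI := Fact.mk (ℓ : Nat.Primes).2
  LinearMap.restrict
    ((transfer (fun h => ℓ.2 (hNS _ (ℓ : Nat.Primes).2 h)) (B := ZMod n)).toIntLinearMap)
    (fun _ hχ => CosetSystem.transfer_isParabolicHom _ hχ)

omit [NeZero N] in
/-- Polynomials in the transfers act on parabolic characters as on all characters. -/
lemma coe_lift_parTransfer {S : Set ℕ} (hNS : ∀ q : ℕ, q.Prime → q ∣ N → q ∈ S) (n : ℕ)
    (P : FreeHecke S) : ∀ χ : ParChar N n,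
      ((FreeAlgebra.lift ℤ (parTransfer hNS n) P χ : ParChar N n) : Additive (Gamma0 N) →+ ZMod n)
        = transferAct hNS (ZMod n) P χ.1 := by
  induction P using FreeAlgebra.induction with
  | grade0 c => intro χ; simp [transferAct]
  | grade1 ℓ => intro χ; simp [transferAct, parTransfer]
  | add a b ha hb => intro χ; simp [ha, hb]
  | mul a b ha hb => intro χ; simp [ha, hb]

/-- For every power of `p` a Galois action on the parabolic characters modulo it, unramified at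
`q` and satisfying the Eichler-Shimura relation. -/
def HasGaloisOnCharacters {S : Set ℕ} (hNS : ∀ q : ℕ, q.Prime → q ∣ N → q ∈ S) (p q : ℕ) :
    Prop :=
  ∀ k : ℕ, ∃ (r : (Qbar ≃ₐ[ℚ] Qbar) →* Module.End ℤ (ParChar N (p ^ k))) (S₀ : Finset ℕ),
    (∀ σ ℓ, Commute (r σ) (parTransfer hNS (p ^ k) ℓ)) ∧
    GaloisFactorsThroughFiniteLevel r ∧
    (∀ P : ValuationSubring Qbar, P.LiesOverPrime q → ∀ σ ∈ P.inertiaSubgroupIn ℚ, r σ = 1) ∧
    (∀ ℓ : AwayIdx S, (ℓ : Nat.Primes).1 ∉ S₀ →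
      ∀ A : ValuationSubring Qbar, A.LiesOverPrime (ℓ : Nat.Primes).1 →
        ∀ φ : Qbar ≃ₐ[ℚ] Qbar, A.IsFrobeniusAt φ (ℓ : Nat.Primes).1 →
          ∀ χ : ParChar N (p ^ k),
            r φ (r φ χ) - parTransfer hNS (p ^ k) ℓ (r φ χ) + (ℓ : Nat.Primes).1 • χ = 0)

/-- Galois actions on parabolic characters supply the operators. -/
theorem hasUnramifiedHeckeOperators_of_characters {S : Set ℕ}
    (hNS : ∀ q : ℕ, q.Prime → q ∣ N → q ∈ S) {p q : ℕ} (hp : p ≠ 0)
    (h : HasGaloisOnCharacters hNS p q) : HasUnramifiedHeckeOperators hNS p q := by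
  intro j
  obtain ⟨k, hk⟩ := exists_forall_dvd_evalFree hNS hp j
  obtain ⟨r, S₀, h1, h2, h3, h4⟩ := h k
  refine ⟨ParChar N (p ^ k), inferInstance, parTransfer hNS (p ^ k), r, k, S₀, h1, ?_, h2, h3, h4,
    fun P hP => hk P fun χ hχ => ?_⟩
  · intro χ
    refine Subtype.ext (AddMonoidHom.ext fun γ => ?_)
    rw [Submodule.coe_smul_of_tower, AddMonoidHom.nsmul_apply, nsmul_eq_mul, ZMod.natCast_self,
      zero_mul]
    rfl
  · rw [← coe_lift_parTransfer hNS (p ^ k) P ⟨χ, hχ⟩, hP]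
    rfl

/-- Unramifiedness outside `S` from Frobenius density and Galois actions on parabolic
characters. -/
theorem isUnramifiedAt_of_characters (hdense : FrobeniusPowDense)
    (hp : p.Prime) (hp𝒪 : (p : 𝒪) ∈ IsLocalRing.maximalIdeal 𝒪) (hpS : p ∈ S)
    (hNS : ∀ q : ℕ, q.Prime → q ∣ N → q ∈ (↑S : Set ℕ))
    (H : CuspForm.HeckeGaloisRepDatum N (↑S : Set ℕ) 𝒪 θ T)
    (q : ℕ) (hq : q.Prime) (hqS : q ∉ S)
    (hchar : HasGaloisOnCharacters hNS p q) : H.ρ.IsUnramifiedAt q :=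
  isUnramifiedAt_of_operators hdense hp hp𝒪 hNS H hq (fun h => hqS (h ▸ hpS))
    (hasUnramifiedHeckeOperators_of_characters hNS hp.ne_zero hchar)

end Fermat.Agent.HeckeDatum
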