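import Mathlib.RingTheory.AdjoinRoot
import Mathlib.LinearAlgebra.Trace
import Mathlib.LinearAlgebra.Charpoly.Basic
import Mathlib.LinearAlgebra.Charpoly.ToMatrix
import Mathlib.LinearAlgebra.Matrix.Charpoly.Coeff
import Mathlib.LinearAlgebra.Dimension.Free

/-!
# Quadratic relations and their powers

If `x ^ 2 - t x + e = 0` then `(x ^ a) ^ 2 - s_a x ^ a + e ^ a = 0`, where `s_a` is the `a`-th power
sum of the two roots of `X ^ 2 - t X + e`.
-/

namespace Fermat.Agent.HeckeDatum

open Polynomial

variable {R : Type*} [CommRing R]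

/-- The `a`-th power sum of the roots of `X ^ 2 - t X + e`. -/
def powTrace (t e : R) : ℕ → R
  | 0 => 2
  | 1 => t
  | (a + 2) => t * powTrace t e (a + 1) - e * powTrace t e a

/-- `powTrace` commutes with ring homomorphisms. -/
lemma map_powTrace {R' : Type*} [CommRing R'] (f : R →+* R') (t e : R) :
    ∀ a : ℕ, f (powTrace t e a) = powTrace (f t) (f e) a
  | 0 => by simp [powTrace, map_ofNat]
  | 1 => by simp [powTrace]
  | (a + 2) => by
      simp only [powTrace, map_sub, map_mul, map_powTrace f t e (a + 1), map_powTrace f t e a]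

/-- `powTrace (x + y) (x y) a = xᵃ + yᵃ`. -/
lemma powTrace_eq_add (x y : R) :
    ∀ a : ℕ, powTrace (x + y) (x * y) a = x ^ a + y ^ a
  | 0 => by simp [powTrace, one_add_one_eq_two]
  | 1 => by simp [powTrace]
  | (a + 2) => by
      simp only [powTrace, powTrace_eq_add x y (a + 1), powTrace_eq_add x y a]
      ring

/-- The relation for powers of a root of `X ^ 2 - t X + e`. -/
lemma pow_quadratic {x t e : R} (h : x ^ 2 - t * x + e = 0) (a : ℕ) :
    (x ^ a) ^ 2 - powTrace t e a * x ^ a + e ^ a = 0 := by
  have he : e = x * (t - x) := by linear_combination h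
  have key := powTrace_eq_add x (t - x) a
  rw [add_sub_cancel, ← he] at key
  rw [key, he, mul_pow]
  ring

/-- The relation for powers, in an arbitrary (not necessarily commutative) algebra. -/
lemma pow_quadratic_algebra {E : Type*} [Ring E] [Algebra R E] {x : E} {t e : R}
    (h : x ^ 2 - t • x + e • (1 : E) = 0) (a : ℕ) :
    (x ^ a) ^ 2 - powTrace t e a • x ^ a + (e ^ a) • (1 : E) = 0 := by
  set f : R[X] := X ^ 2 - C t * X + C e with hf
  have hroot : (AdjoinRoot.root f) ^ 2 - algebraMap R _ t * AdjoinRoot.root f
      + algebraMap R (AdjoinRoot f) e = 0 := by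
    have := AdjoinRoot.mk_self (f := f)
    rw [hf, map_add, map_sub, map_pow, map_mul] at this
    simpa [AdjoinRoot.mk_X, AdjoinRoot.mk_C, AdjoinRoot.algebraMap_eq] using this
  have h2 := pow_quadratic hroot a
  rw [← map_powTrace, ← map_pow (algebraMap R (AdjoinRoot f))] at h2
  have hdvd : f ∣ (X ^ a) ^ 2 - C (powTrace t e a) * X ^ a + C (e ^ a) := by
    rw [← AdjoinRoot.mk_eq_zero]
    simpa [AdjoinRoot.algebraMap_eq] using h2
  obtain ⟨g, hg⟩ := hdvd
  have := congr_arg (aeval x) hg
  have hfx : aeval x f = 0 := by
    simpa [hf, Algebra.smul_def] using h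
  rw [map_mul, hfx, zero_mul] at this
  simpa [Algebra.smul_def] using this

section trace

variable {V : Type*} [AddCommGroup V] [Module R V] [Module.Free R V] [Module.Finite R V]

lemma trace_eq_of_charpoly [Nontrivial R] (hV : Module.finrank R V = 2) {F : Module.End R V}
    {t e : R} (hF : LinearMap.charpoly F = X ^ 2 - C t * X + C e) :
    LinearMap.trace R V F = t := by
  let b := Module.finBasisOfFinrankEq R V hV
  rw [LinearMap.trace_eq_matrix_trace R b, Matrix.trace_eq_neg_charpoly_coeff,
    LinearMap.charpoly_toMatrix, hF]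
  simp [coeff_X_pow]

/-- The trace of `F ^ a` for an endomorphism with characteristic polynomial `X ^ 2 - t X + e`. -/
lemma trace_pow_of_charpoly [Nontrivial R] (hV : Module.finrank R V = 2) {F : Module.End R V}
    {t e : R} (hF : LinearMap.charpoly F = X ^ 2 - C t * X + C e) :
    ∀ a : ℕ, LinearMap.trace R V (F ^ a) = powTrace t e a
  | 0 => by simp [powTrace, LinearMap.trace_one, hV]
  | 1 => by simpa [powTrace] using trace_eq_of_charpoly hV hF
  | (a + 2) => by
      have h2 : F ^ 2 - t • F + e • (1 : Module.End R V) = 0 := by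
        have := LinearMap.aeval_self_charpoly F
        rw [hF] at this
        simpa [Algebra.smul_def] using this
      have h3 : F ^ (a + 2) = t • F ^ (a + 1) - e • F ^ a := by
        have h4 : F ^ 2 = t • F - e • (1 : Module.End R V) := by
          rw [← sub_eq_zero, ← h2]; abel
        rw [pow_add, h4, mul_sub, mul_smul_comm, mul_smul_comm, mul_one, ← pow_succ]
      rw [h3, map_sub, map_smul, map_smul, trace_pow_of_charpoly hV hF (a + 1),
        trace_pow_of_charpoly hV hF a]
      simp [powTrace]

/-- The trace of an endomorphism with range inside `I • ⊤` lies in `I`. -/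
lemma trace_mem_of_forall_mem_smul_top (I : Ideal R) {f : Module.End R V}
    (hf : ∀ v : V, f v ∈ I • (⊤ : Submodule R V)) :
    LinearMap.trace R V f ∈ I := by
  classical
  let b := Module.Free.chooseBasis R V
  rw [LinearMap.trace_eq_matrix_trace R b, Matrix.trace]
  refine I.sum_mem fun i _ => ?_
  rw [Matrix.diag_apply, LinearMap.toMatrix_apply]
  refine Submodule.smul_induction_on (p := fun v => b.repr v i ∈ I) (hf (b i)) ?_ ?_
  · intro r hr w _
    rw [map_smul, Finsupp.smul_apply, smul_eq_mul]
    exact I.mul_mem_right _ hr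
  · intro u w hu hw
    rw [map_add, Finsupp.add_apply]
    exact I.add_mem hu hw

/-- Nondegeneracy of the trace form on endomorphisms of a finite free module. -/
lemma eq_zero_of_forall_trace_mul_eq_zero {X : Module.End R V}
    (h : ∀ f : Module.End R V, LinearMap.trace R V (X * f) = 0) : X = 0 := by
  classical
  let b := Module.Free.chooseBasis R V
  apply LinearMap.ext
  intro v
  apply b.repr.injective
  refine Finsupp.ext fun i => ?_
  have h1 := h ((b.coord i).smulRight v)
  rw [Module.End.mul_eq_comp, show X.comp ((b.coord i).smulRight v)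
      = (b.coord i).smulRight (X v) from LinearMap.ext fun w => by simp] at h1
  rw [LinearMap.trace_smulRight] at h1
  simpa using h1

end trace

end Fermat.Agent.HeckeDatum
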