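import Fermat.Prelude.Def_CuspForm_HeckeGaloisRepDatum
import Fermat.Agent.HeckeDatum.QuadraticRelations
import Mathlib.RingTheory.RootsOfUnity.EnoughRootsOfUnity
import Mathlib.RingTheory.RootsOfUnity.AlgebraicallyClosed
import Mathlib.RingTheory.Filtration
import Mathlib.FieldTheory.IntermediateField.Adjoin.Basic

/-!
# Frobenius density, roots of unity, and congruent automorphisms

The statement of Frobenius density `FrobeniusPowDense`; the action of inertia and of Frobenius
elements at `ℓ` on roots of unity of order prime to `ℓ`; automorphisms agreeing on a number field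
are congruent in an adic representation trivial modulo `𝔪ⁿ` over that field. These enter the trace
invariance under inertia of Hecke-Galois data.
-/

namespace Fermat.Agent.HeckeDatum

open Polynomial

local notation "Qbar" => AlgebraicClosure ℚ

/-- Frobenius density: on every finite extension, every automorphism is a power of a Frobenius
element at a prime outside a given finite set. -/
def FrobeniusPowDense : Prop :=
  ∀ L : IntermediateField ℚ Qbar, FiniteDimensional ℚ L →
    ∀ (σ : Qbar ≃ₐ[ℚ] Qbar) (S₀ : Finset ℕ),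
      ∃ ℓ : ℕ, ℓ.Prime ∧ ℓ ∉ S₀ ∧ ∃ A : ValuationSubring Qbar, A.LiesOverPrime ℓ ∧
        ∃ φ : Qbar ≃ₐ[ℚ] Qbar, A.IsFrobeniusAt φ ℓ ∧
          ∃ a : ℕ, ∀ x ∈ L, σ x = (φ ^ a) x

section roots

variable (A : ValuationSubring Qbar) {ℓ n : ℕ}

lemma natCast_ne_zero_residue (hA : A.LiesOverPrime ℓ) (hn : Nat.Coprime n ℓ) :
    (n : IsLocalRing.ResidueField A) ≠ 0 := by
  intro h
  have hℓ0 : (ℓ : IsLocalRing.ResidueField A) = 0 := by
    obtain ⟨hmem, hmax⟩ := ValuationSubring.mem_nonunits_iff_exists_mem_maximalIdeal.mp hA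
    rw [← map_natCast (IsLocalRing.residue A) ℓ, IsLocalRing.residue_eq_zero_iff]
    exact hmax
  have h' : ((Nat.gcd n ℓ : ℕ) : IsLocalRing.ResidueField A) = 0 := by
    have hb := congr_arg (Int.cast : ℤ → IsLocalRing.ResidueField A) (Nat.gcd_eq_gcd_ab n ℓ)
    push_cast at hb
    simpa [h, hℓ0] using hb
  rw [hn, Nat.cast_one] at h'
  exact one_ne_zero h'

/-- Roots of unity are integral. -/
lemma mem_of_pow_eq_one (hn0 : n ≠ 0) {x : Qbar} (hx : x ^ n = 1) : x ∈ A := by
  rcases A.mem_or_inv_mem x with h | h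
  · exact h
  · have hne : x ≠ 0 := fun h0 => by rw [h0, zero_pow hn0] at hx; exact zero_ne_one hx
    have : x = (x⁻¹) ^ (n - 1) := by
      rw [inv_pow]
      refine eq_inv_of_mul_eq_one_left ?_
      rw [← pow_succ', Nat.sub_add_cancel (Nat.one_le_iff_ne_zero.mpr hn0), hx]
    rw [this]
    exact pow_mem h _

/-- Reduction is injective on roots of unity of order prime to the residue characteristic. -/
lemma eq_of_residue_eq (hA : A.LiesOverPrime ℓ) (hn : Nat.Coprime n ℓ) (hn0 : n ≠ 0) {x y : A}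
    (hx : x ^ n = 1) (hy : y ^ n = 1)
    (h : IsLocalRing.residue A x = IsLocalRing.residue A y) : x = y := by
  have hyu : IsUnit y := IsUnit.of_pow_eq_one hy hn0
  obtain ⟨u, rfl⟩ := hyu
  set η : A := x * ↑u⁻¹ with hη
  have hη1 : η ^ n = 1 := by
    rw [hη, mul_pow, hx, one_mul, ← Units.val_pow_eq_pow_val, inv_pow]
    have : u ^ n = 1 := Units.ext (by simpa using hy)
    simp [this]
  have hres : IsLocalRing.residue A η = 1 := by
    rw [hη, map_mul, h, ← map_mul, Units.mul_inv, map_one]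
  by_contra hne
  have hne' : η - 1 ≠ 0 := by
    intro h0
    apply hne
    calc x = η * ↑u := by rw [hη, Units.inv_mul_cancel_right]
      _ = ↑u := by rw [sub_eq_zero.mp h0, one_mul]
  have hsum : ∑ i ∈ Finset.range n, η ^ i = 0 := by
    have := geom_sum_mul η n
    rw [hη1, sub_self] at this
    exact (mul_eq_zero.mp this).resolve_right hne'
  apply natCast_ne_zero_residue A hA hn
  have := congr_arg (IsLocalRing.residue A) hsum
  simpa [hres] using this

/-- Inertia at `ℓ` fixes roots of unity of order prime to `ℓ`. -/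
lemma inertia_apply_eq (hA : A.LiesOverPrime ℓ) (hn : Nat.Coprime n ℓ) (hn0 : n ≠ 0)
    {σ : Qbar ≃ₐ[ℚ] Qbar} (hσ : σ ∈ A.inertiaSubgroupIn ℚ) {x : Qbar} (hx : x ^ n = 1) :
    σ x = x := by
  obtain ⟨τ, hτ, rfl⟩ := Subgroup.mem_map.mp hσ
  have hker : MulSemiringAction.toRingAut (A.decompositionSubgroup ℚ)
      (IsLocalRing.ResidueField A) τ = 1 := hτ
  set a : A := ⟨x, mem_of_pow_eq_one A hn0 hx⟩
  have ha : a ^ n = 1 := Subtype.ext hx
  have h1 : τ • a = a := by
    refine eq_of_residue_eq A hA hn hn0 (by rw [← smul_pow', ha, smul_one]) ha ?_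
    rw [IsLocalRing.ResidueField.residue_smul]
    exact RingEquiv.congr_fun hker (IsLocalRing.residue A a)
  exact congr_arg Subtype.val h1

/-- Frobenius powers raise roots of unity of order prime to `ℓ` to powers of `ℓ`. -/
lemma frobenius_pow_apply_eq (hA : A.LiesOverPrime ℓ) (hn : Nat.Coprime n ℓ) (hn0 : n ≠ 0)
    {φ : Qbar ≃ₐ[ℚ] Qbar} (hφ : A.IsFrobeniusAt φ ℓ) (a : ℕ) {x : Qbar} (hx : x ^ n = 1) :
    (φ ^ a) x = x ^ ℓ ^ a := by
  have key : ∀ y : Qbar, y ^ n = 1 → φ y = y ^ ℓ := by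
    intro y hy
    set b : A := ⟨y, mem_of_pow_eq_one A hn0 hy⟩
    have hb : b ^ n = 1 := Subtype.ext hy
    set τ : A.decompositionSubgroup ℚ := ⟨φ, hφ.mem_decompositionSubgroup⟩
    have h1 : τ • b = b ^ ℓ := by
      refine eq_of_residue_eq A hA hn hn0 (by rw [← smul_pow', hb, smul_one])
        (by rw [← pow_mul, mul_comm, pow_mul, hb, one_pow]) ?_
      rw [IsLocalRing.ResidueField.residue_smul, hφ.smul_residue_eq, map_pow]
    exact congr_arg Subtype.val h1
  induction a with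
  | zero => simp
  | succ a ih =>
    rw [pow_succ', AlgEquiv.mul_apply, ih, map_pow, key x hx, ← pow_mul, ← pow_succ']

end roots

variable {p : ℕ} {N : ℕ} [NeZero N] {S : Finset ℕ}
  {𝒪 : Type} [CommRing 𝒪] [IsDomain 𝒪] [IsDiscreteValuationRing 𝒪]
  [IsAdicComplete (IsLocalRing.maximalIdeal 𝒪) 𝒪]
  {θ : CuspForm.heckeAlgebra N 2 (↑S : Set ℕ) →+* IsLocalRing.ResidueField 𝒪}
  {T : Type} [CommRing T] [IsLocalRing T] [IsNoetherianRing T]
  [IsAdicComplete (IsLocalRing.maximalIdeal T) T] [Algebra 𝒪 T] [IsLocalHom (algebraMap 𝒪 T)]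
  [Module.Finite 𝒪 T] [Module.Free 𝒪 T]

omit [NeZero N] in
/-- Automorphisms which agree on `L` are congruent in a representation trivial modulo `𝔪ⁿ` over
`L`. -/
lemma apply_sub_apply_mem {A : Type} [CommRing A] [IsLocalRing A] (ρ : GaloisRepAdic A) {n : ℕ}
    {L : IntermediateField ℚ Qbar}
    (hL : ∀ σ : Qbar ≃ₐ[ℚ] Qbar, (∀ x ∈ L, σ x = x) →
      ∀ v : ρ.V, ρ.ρ σ v - v ∈ (IsLocalRing.maximalIdeal A ^ n) • (⊤ : Submodule A ρ.V))
    {g h : Qbar ≃ₐ[ℚ] Qbar} (hgh : ∀ x ∈ L, g x = h x) (v : ρ.V) :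
    ρ.ρ g v - ρ.ρ h v ∈ (IsLocalRing.maximalIdeal A ^ n) • (⊤ : Submodule A ρ.V) := by
  have h1 := hL (h⁻¹ * g) (fun x hx => by
    rw [AlgEquiv.mul_apply, hgh x hx]; exact AlgEquiv.symm_apply_apply h x) v
  have h2 := Submodule.mem_map_of_mem (f := ρ.ρ h) h1
  rw [Submodule.map_smul''] at h2
  have h3 : ρ.ρ h (ρ.ρ (h⁻¹ * g) v - v) = ρ.ρ g v - ρ.ρ h v := by
    rw [map_sub, ← Module.End.mul_apply, ← map_mul, mul_inv_cancel_left]
  rw [h3] at h2
  exact (Submodule.smul_mono le_rfl le_top) h2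

end Fermat.Agent.HeckeDatum
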